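import Mathlib
import Fermat.Agent.S18.B12.Spec2

/-!
# S18 / b2 assembly, piece A1 (`PolyInstStatement`) — helper245

`polyInst : PolyInstStatement` : the ring-theoretic facts about `R[X]` (`R` a DVR of characteristic
`0`, `w` a uniformiser) needed to deduce `B2Statement` from `B2AbsStatement`.
Mathlib-only (plus the frozen statement file `B12/Spec2.lean`).
-/

set_option autoImplicit false
set_option linter.style.haveILetI false

noncomputable section

namespace Fermat.Agent.S18.B12.H245

open Polynomial

universe u

variable {R : Type u} [CommRing R] [IsDomain R] [IsDiscreteValuationRing R]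

/-- In a DVR the ideal generated by a uniformiser is maximal. -/
theorem span_isMaximal_of_irreducible {w : R} (hw : Irreducible w) :
    (Ideal.span {w}).IsMaximal := by
  rw [← (IsDiscreteValuationRing.irreducible_iff_uniformizer w).mp hw]
  exact IsLocalRing.maximalIdeal.isMaximal R

/-- Every nonzero element of a DVR becomes a unit once a uniformiser is inverted. -/
theorem isUnit_algebraMap_of_ne_zero {w : R} (hw : Irreducible w) (S : Type*) [CommRing S]
    [Algebra R S] (hwS : IsUnit (algebraMap R S w)) {r : R} (hr : r ≠ 0) :
    IsUnit (algebraMap R S r) := by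
  obtain ⟨n, hn⟩ := IsDiscreteValuationRing.associated_pow_irreducible hr hw
  obtain ⟨u, hu⟩ := hn.symm
  rw [← hu, map_mul, map_pow]
  exact (hwS.pow n).mul (u.isUnit.map (algebraMap R S))

/-- `R[1/w]` is the fraction field of the DVR `R`. -/
theorem isFractionRing_away {w : R} (hw : Irreducible w) :
    IsFractionRing R (Localization.Away w) := by
  refine IsLocalization.of_le (Submonoid.powers w) (nonZeroDivisors R) ?_ ?_
  · rw [Submonoid.powers_le]
    exact mem_nonZeroDivisors_of_ne_zero hw.ne_zero
  · intro r hr
    exact isUnit_algebraMap_of_ne_zero hw _ (IsLocalization.Away.algebraMap_isUnit w)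
      (nonZeroDivisors.ne_zero hr)

/-- `R[X][1/w]` is a principal ideal ring. -/
theorem isPrincipalIdealRing_away_C {w : R} (hw : Irreducible w) :
    IsPrincipalIdealRing (Localization.Away (C w : R[X])) := by
  haveI : IsFractionRing R (Localization.Away w) := isFractionRing_away hw
  letI : Field (Localization.Away w) := IsFractionRing.toField R
  letI : Algebra R[X] (Localization.Away w)[X] := Polynomial.algebra R (Localization.Away w)
  haveI h1 : IsLocalization ((Submonoid.powers w).map (C : R →+* R[X]))
      (Localization.Away w)[X] :=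
    Polynomial.isLocalization (Submonoid.powers w) (Localization.Away w)
  rw [Submonoid.map_powers] at h1
  haveI : IsLocalization (Submonoid.powers (C w : R[X])) (Localization.Away w)[X] := h1
  let e : (Localization.Away w)[X] ≃ₐ[R[X]] Localization.Away (C w : R[X]) :=
    IsLocalization.algEquiv (Submonoid.powers (C w : R[X])) _ _
  haveI : IsPrincipalIdealRing (Localization.Away w)[X] := inferInstance
  exact IsPrincipalIdealRing.of_surjective e.toRingEquiv.toRingHom e.surjective

/-- `R[X]/(w)` is a principal ideal ring. -/
theorem isPrincipalIdealRing_quot_C {w : R} (hw : Irreducible w) :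
    IsPrincipalIdealRing (R[X] ⧸ Ideal.span {(C w : R[X])}) := by
  haveI := span_isMaximal_of_irreducible hw
  letI : Field (R ⧸ Ideal.span {w}) := Ideal.Quotient.field _
  have hmap : Ideal.map (C : R →+* R[X]) (Ideal.span {w}) = Ideal.span {(C w : R[X])} := by
    rw [Ideal.map_span, Set.image_singleton]
  let e : (R ⧸ Ideal.span {w})[X] ≃+* R[X] ⧸ Ideal.span {(C w : R[X])} :=
    (Ideal.polynomialQuotientEquivQuotientPolynomial (Ideal.span {w})).trans
      (Ideal.quotEquivOfEq hmap)
  haveI : IsPrincipalIdealRing (R ⧸ Ideal.span {w})[X] := inferInstance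
  exact IsPrincipalIdealRing.of_surjective e.toRingHom e.surjective

/-- `R[X]/(X - c) ≅ R` is a principal ideal ring. -/
theorem isPrincipalIdealRing_quot_X_sub_C (c : R) :
    IsPrincipalIdealRing (R[X] ⧸ Ideal.span {(X - C c : R[X])}) :=
  IsPrincipalIdealRing.of_surjective (quotientSpanXSubCAlgEquiv c).symm.toRingEquiv.toRingHom
    (quotientSpanXSubCAlgEquiv c).symm.surjective

/-- Evaluation at `c` followed by reduction mod `w`. -/
def evalRes (w c : R) : R[X] →+* R ⧸ Ideal.span {w} :=
  (Ideal.Quotient.mk (Ideal.span {w})).comp (evalRingHom c)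

omit [IsDomain R] [IsDiscreteValuationRing R] in
theorem evalRes_surjective (w c : R) : Function.Surjective (evalRes w c) := by
  intro y
  obtain ⟨r, rfl⟩ := Ideal.Quotient.mk_surjective y
  exact ⟨C r, by simp [evalRes]⟩

omit [IsDomain R] [IsDiscreteValuationRing R] in
theorem ker_evalRes (w c : R) :
    RingHom.ker (evalRes w c) = Ideal.span {(C w : R[X]), X - C c} := by
  apply le_antisymm
  · intro f hf
    rw [RingHom.mem_ker, evalRes, RingHom.comp_apply, Ideal.Quotient.eq_zero_iff_mem,
      Ideal.mem_span_singleton] at hf
    obtain ⟨r, hr⟩ := hf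
    have hdecomp : f = C w * C r + (X - C c) * (f /ₘ (X - C c)) := by
      have h := modByMonic_add_div f (X - C c)
      rw [modByMonic_X_sub_C_eq_C_eval] at h
      rw [← C_mul, ← hr]
      exact h.symm
    rw [hdecomp]
    refine Ideal.add_mem _ (Ideal.mul_mem_right _ _ (Ideal.subset_span (by simp)))
      (Ideal.mul_mem_right _ _ (Ideal.subset_span (by simp)))
  · rw [Ideal.span_le]
    rintro f (rfl | rfl)
    · simp [evalRes]
    · simp [evalRes]

/-- **A1 (instantiation `P = R[X]`)**, exact frozen statement of `B12/Spec2.lean`. -/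
theorem polyInst : Fermat.Agent.S18.B12.PolyInstStatement.{u} := by
  intro R _ _ _ _ w hw
  refine ⟨prime_C_iff.mpr hw.prime, isPrincipalIdealRing_quot_C hw,
    isPrincipalIdealRing_away_C hw, ?_, ?_⟩
  · intro m hm
    have hmR : (m : R) ≠ 0 := Nat.cast_ne_zero.mpr hm
    have h1 : IsUnit (algebraMap R[X] (Localization.Away (C w : R[X])) (C w)) :=
      IsLocalization.Away.algebraMap_isUnit (C w)
    letI : Algebra R (Localization.Away (C w : R[X])) :=
      ((algebraMap R[X] (Localization.Away (C w : R[X]))).comp C).toAlgebra
    have h2 : IsUnit (algebraMap R (Localization.Away (C w : R[X])) (m : R)) :=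
      isUnit_algebraMap_of_ne_zero hw _ h1 hmR
    have h3 : algebraMap R (Localization.Away (C w : R[X])) (m : R) =
        algebraMap R[X] (Localization.Away (C w : R[X])) (m : R[X]) := by
      show algebraMap R[X] (Localization.Away (C w : R[X])) (C (m : R)) = _
      rw [map_natCast C m]
    rwa [h3] at h2
  · intro c
    refine ⟨prime_X_sub_C c, ?_, ?_, isPrincipalIdealRing_quot_X_sub_C c, ?_⟩
    · intro h
      have hdvd : X - C c ∣ (C w : R[X]) := h.dvd
      rw [dvd_iff_isRoot, IsRoot, eval_C] at hdvd
      exact hw.ne_zero hdvd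
    · haveI := span_isMaximal_of_irreducible hw
      letI : Field (R ⧸ Ideal.span {w}) := Ideal.Quotient.field _
      rw [← ker_evalRes]
      exact RingHom.ker_isMaximal_of_surjective (evalRes w c) (evalRes_surjective w c)
    · intro c' hmem hunit
      rw [← ker_evalRes, RingHom.mem_ker, evalRes, RingHom.comp_apply,
        Ideal.Quotient.eq_zero_iff_mem] at hmem
      have hev : evalRingHom c (X - C c') = c - c' := by simp
      rw [hev, ← (IsDiscreteValuationRing.irreducible_iff_uniformizer w).mp hw,
        IsLocalRing.mem_maximalIdeal] at hmem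
      exact hmem hunit

end Fermat.Agent.S18.B12.H245
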