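import Mathlib
import Fermat.Agent.S18.B12.Spec2

/-!
# S18 / b2 assembly, pieces P4 (`RedBasisStatement`) and A5' (`RedBasisAbsStatement`) — helper245

* `redBasis : RedBasisStatement` (P4): a finite torsion-free algebra over a PID has a family which is
  a basis modulo nilpotents.
* `redBasisAbs_of_regSeqAbs : RegSeqAbsStatement → RedBasisAbsStatement` (A5'): the same for `B/sB`
  over `P/(s)`, lifted to `B`; the torsion-freeness of `B/sB` over `P/(s)` is A0.

Mathlib-only (plus the frozen statement files `B12/Spec.lean`, `B12/Spec2.lean`).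
-/

set_option autoImplicit false
set_option linter.style.haveILetI false

noncomputable section

namespace Fermat.Agent.S18.B12.H245

universe u v

/-- Generic form of P4: for an ideal `J` of a finite `R`-algebra `R₁` (`R` a PID) such that
`R₁ ⧸ J` is `R`-torsion-free, there is a family which is a basis modulo `J`. -/
theorem exists_basis_mod {R : Type u} [CommRing R] [IsDomain R] [IsPrincipalIdealRing R]
    {R₁ : Type v} [CommRing R₁] [Algebra R R₁] [Module.Finite R R₁] (J : Ideal R₁)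
    (htf : ∀ (r : R) (x : R₁), r ≠ 0 → r • x ∈ J → x ∈ J) :
    ∃ (r : ℕ) (y : Fin r → R₁),
      (∀ a : Fin r → R, (∑ i, a i • y i) ∈ J → a = 0) ∧
      (∀ x : R₁, ∃ a : Fin r → R, x - ∑ i, a i • y i ∈ J) := by
  let φ : R₁ →ₐ[R] R₁ ⧸ J := Ideal.Quotient.mkₐ R J
  have hφ : Function.Surjective φ := Ideal.Quotient.mkₐ_surjective R J
  have hker : ∀ x : R₁, φ x = 0 ↔ x ∈ J := fun x => Ideal.Quotient.eq_zero_iff_mem
  haveI : Module.Finite R (R₁ ⧸ J) := Module.Finite.of_surjective φ.toLinearMap hφ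
  haveI : Module.IsTorsionFree R (R₁ ⧸ J) := by
    refine ⟨fun r hr x y hxy => ?_⟩
    obtain ⟨x, rfl⟩ := hφ x
    obtain ⟨y, rfl⟩ := hφ y
    have h1 : φ (r • (x - y)) = 0 := by
      have h2 : r • φ x = r • φ y := hxy
      rw [map_smul, map_sub, smul_sub, h2, sub_self]
    have h3 : x - y ∈ J := htf r (x - y) hr.ne_zero ((hker _).mp h1)
    have h4 : φ (x - y) = 0 := (hker _).mpr h3
    rw [map_sub, sub_eq_zero] at h4
    exact h4
  obtain ⟨n, b⟩ := Module.basisOfFiniteTypeTorsionFree' (R := R) (M := R₁ ⧸ J)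
  choose y hy using fun i => hφ (b i)
  refine ⟨n, y, ?_, ?_⟩
  · intro a ha
    have h0 : ∑ i, a i • b i = 0 := by
      have h1 : φ (∑ i, a i • y i) = 0 := (hker _).mpr ha
      rw [map_sum] at h1
      simpa only [map_smul, hy] using h1
    funext i
    exact Fintype.linearIndependent_iff.mp b.linearIndependent a h0 i
  · intro x
    refine ⟨fun i => b.repr (φ x) i, ?_⟩
    rw [← hker, map_sub, map_sum, sub_eq_zero]
    simp only [map_smul, hy]
    exact (b.sum_repr (φ x)).symm

/-- **P4 (reduced basis)**, exact frozen statement of `B12/Spec.lean`. -/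
theorem redBasis : Fermat.Agent.S18.B12.RedBasisStatement.{u, v} := by
  intro R _ _ _ R₁ _ _ _ _
  obtain ⟨r, y, h1, h2⟩ := exists_basis_mod (R := R) (nilradical R₁) (by
    intro r x hr hx
    rw [mem_nilradical] at hx ⊢
    obtain ⟨k, hk⟩ := hx
    refine ⟨k, ?_⟩
    rw [smul_pow] at hk
    exact (smul_eq_zero_iff_right (pow_ne_zero k hr)).mp hk)
  exact ⟨r, y, fun a ha => h1 a (mem_nilradical.mpr ha),
    fun x => (h2 x).imp fun a ha => mem_nilradical.mp ha⟩

/-- **A5' (reduced basis at a prime `s`)**, exact frozen statement of `B12/Spec2.lean`, from A0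
(`RegSeqAbsStatement`, which gives that `B/rad(sB)` is torsion-free over `P/(s)`). -/
theorem redBasisAbs_of_regSeqAbs (hA0 : Fermat.Agent.S18.B12.RegSeqAbsStatement.{u, v}) :
    Fermat.Agent.S18.B12.RedBasisAbsStatement.{u, v} := by
  intro P _ _ _ B _ _ _ _ _ _ s hs hPID
  set Js : Ideal B := Ideal.span {algebraMap P B s} with hJs
  set I : Ideal P := Ideal.span {s} with hI
  haveI : I.IsPrime := (Ideal.span_singleton_prime hs.ne_zero).mpr hs
  haveI : IsPrincipalIdealRing (P ⧸ I) := hPID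
  have hsJ : algebraMap P B s ∈ Js.radical := Ideal.le_radical (Ideal.subset_span rfl)
  let mkQ : B →+* B ⧸ Js.radical := Ideal.Quotient.mk Js.radical
  have hmkQ : Function.Surjective mkQ := Ideal.Quotient.mk_surjective
  have hkerQ : ∀ x : B, mkQ x = 0 ↔ x ∈ Js.radical := fun x => Ideal.Quotient.eq_zero_iff_mem
  let ψ₀ : P →+* B ⧸ Js.radical := mkQ.comp (algebraMap P B)
  have hψ₀ : ∀ a ∈ I, ψ₀ a = 0 := by
    intro a ha
    obtain ⟨c, rfl⟩ := Ideal.mem_span_singleton.mp ha
    show mkQ (algebraMap P B (s * c)) = 0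
    rw [hkerQ, map_mul]
    exact Ideal.mul_mem_right _ _ hsJ
  let ψ : P ⧸ I →+* B ⧸ Js.radical := Ideal.Quotient.lift I ψ₀ hψ₀
  letI : Algebra (P ⧸ I) (B ⧸ Js.radical) := ψ.toAlgebra
  have hsmul : ∀ (a : P) (q : B ⧸ Js.radical),
      (Ideal.Quotient.mk I a) • q = mkQ (algebraMap P B a) * q := by
    intro a q
    rw [Algebra.smul_def]
    rfl
  have hsmul' : ∀ (a : P) (x : B), mkQ (a • x) = (Ideal.Quotient.mk I a) • mkQ x := by
    intro a x
    rw [hsmul, Algebra.smul_def, map_mul]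
  haveI : IsScalarTower P (P ⧸ I) (B ⧸ Js.radical) :=
    IsScalarTower.of_algebraMap_eq fun x => rfl
  haveI : Module.Finite P (B ⧸ Js.radical) :=
    Module.Finite.of_surjective (Ideal.Quotient.mkₐ P Js.radical).toLinearMap
      (Ideal.Quotient.mkₐ_surjective P _)
  haveI : Module.Finite (P ⧸ I) (B ⧸ Js.radical) :=
    Module.Finite.of_restrictScalars_finite P (P ⧸ I) (B ⧸ Js.radical)
  haveI : Module.IsTorsionFree (P ⧸ I) (B ⧸ Js.radical) := by
    refine ⟨fun r hr x y hxy => ?_⟩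
    obtain ⟨r, rfl⟩ := Ideal.Quotient.mk_surjective r
    obtain ⟨x, rfl⟩ := hmkQ x
    obtain ⟨y, rfl⟩ := hmkQ y
    have hr0 : ¬ s ∣ r := by
      intro hdvd
      apply hr.ne_zero
      rw [Ideal.Quotient.eq_zero_iff_mem]
      exact Ideal.mem_span_singleton.mpr hdvd
    have h1 : mkQ (algebraMap P B r * (x - y)) = 0 := by
      have h2 : (Ideal.Quotient.mk I r) • mkQ x = (Ideal.Quotient.mk I r) • mkQ y := hxy
      rw [hsmul, hsmul] at h2
      rw [map_mul, map_sub, mul_sub, h2, sub_self]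
    rw [hkerQ] at h1
    obtain ⟨k, hk⟩ := h1
    rw [mul_pow, ← map_pow] at hk
    obtain ⟨b', hb'⟩ := Ideal.mem_span_singleton.mp hk
    have hrk : ¬ s ∣ r ^ k := fun h => hr0 (hs.dvd_of_dvd_pow h)
    obtain ⟨b'', hb'', -⟩ := hA0 P B (r ^ k) s hs hrk ((x - y) ^ k) b' hb'
    have h3 : x - y ∈ Js.radical := ⟨k, Ideal.mem_span_singleton.mpr ⟨b'', hb''⟩⟩
    have h4 : mkQ (x - y) = 0 := (hkerQ _).mpr h3
    rw [map_sub, sub_eq_zero] at h4
    exact h4
  obtain ⟨n, b⟩ := Module.basisOfFiniteTypeTorsionFree' (R := P ⧸ I) (M := B ⧸ Js.radical)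
  choose y hy using fun i => hmkQ (b i)
  refine ⟨n, y, ?_, ?_⟩
  · intro a ha i
    have h0 : ∑ i, (Ideal.Quotient.mk I (a i)) • b i = 0 := by
      have h1 : mkQ (∑ i, a i • y i) = 0 := (hkerQ _).mpr ha
      rw [map_sum] at h1
      simpa only [hsmul', hy] using h1
    have h2 := Fintype.linearIndependent_iff.mp b.linearIndependent _ h0 i
    rw [Ideal.Quotient.eq_zero_iff_mem] at h2
    exact Ideal.mem_span_singleton.mp h2
  · intro x
    choose a ha using fun i => Ideal.Quotient.mk_surjective (b.repr (mkQ x) i)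
    refine ⟨a, ?_⟩
    rw [← hkerQ, map_sub, map_sum, sub_eq_zero]
    simp only [hsmul', hy, ha]
    exact (b.sum_repr (mkQ x)).symm

end Fermat.Agent.S18.B12.H245
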