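import Mathlib
import Fermat.Agent.S18.B12.Spec2

/-!
# S18 / b2 assembly, piece A4 (`UFDStepStatement`) — helper245

`ufdStep : UFDStepStatement` : in a UFD `P` with a prime ideal `𝔪` and a prime element `p`, if every
prime factor of `D ≠ 0` lying in `𝔪` is associated to `p`, then `D = p ^ a * D₁` with `D₁ ∉ 𝔪`.
Mathlib-only (plus the frozen statement file `B12/Spec2.lean`).
-/

set_option autoImplicit false

namespace Fermat.Agent.S18.B12.H245

universe u

/-- **A4 (UFD step)**, exact frozen statement of `B12/Spec2.lean`. -/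
theorem ufdStep : Fermat.Agent.S18.B12.UFDStepStatement.{u} := by
  intro P _ _ _ 𝔪 h𝔪 p _hp D hD h
  induction D using UniqueFactorizationMonoid.induction_on_prime with
  | h₁ => exact absurd rfl hD
  | h₂ x hx =>
    refine ⟨0, x, by simp, fun hmem => ?_⟩
    exact h𝔪.ne_top (Ideal.eq_top_of_isUnit_mem _ hmem hx)
  | h₃ a π ha hπ ih =>
    obtain ⟨k, D₁, hk, hD₁⟩ := ih ha fun π' hπ' hdvd hmem =>
      h π' hπ' (Dvd.dvd.mul_left hdvd π) hmem
    by_cases hmem : π ∈ 𝔪
    · obtain ⟨u, hu⟩ := (h π hπ (dvd_mul_right π a) hmem).symm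
      refine ⟨k + 1, (u : P) * D₁, ?_, fun hm => ?_⟩
      · rw [hk, ← hu]; ring
      · rcases h𝔪.mem_or_mem hm with h1 | h1
        · exact h𝔪.ne_top (Ideal.eq_top_of_isUnit_mem _ h1 u.isUnit)
        · exact hD₁ h1
    · refine ⟨k, π * D₁, ?_, fun hm => ?_⟩
      · rw [hk]; ring
      · rcases h𝔪.mem_or_mem hm with h1 | h1
        · exact hmem h1
        · exact hD₁ h1

end Fermat.Agent.S18.B12.H245
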